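import Fermat.Agent.S37.II.RedData
import Fermat.Agent.S37.Statements
import Fermat.Agent.S37.HeckeInputs.Main
import Fermat.Agent.S24.FFBasic
import Fermat.Agent.GAL.E.Exists

/-!
# S37 route II, CORE: the Eichler-Shimura relation for `rr ρ`, from the rigidity lemma and
`isOne_frobenius` (both taken as hypotheses here; the final statement is in `Core/Frobenius.lean`).
-/

set_option autoImplicit false

noncomputable section

namespace Fermat.Agent.S37.II

open AlgebraicCurve ModularCurve Fermat.Agent.S24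
open Fermat.Agent.S37.HeckeInputs Fermat.Agent.GAL.E

section

variable (N ℓ : ℕ) [NeZero N] [NeZero ℓ]

/-- the degree of `β` as the sum of the ramification indices in a fibre -/
theorem frobAux_sum_ram (v : Place Kbar (FN N)) :
    ∑ w ∈ Place.fiberAlong (heckeBetaBar Kbar N ℓ) (beta_integral N ℓ) v,
      (w.ramificationIndexAlong (heckeBetaBar Kbar N ℓ) : ℤ) =
        (finrankAlong Kbar (heckeBetaBar Kbar N ℓ) : ℤ) := by
  let _ := algebraAlong (heckeBetaBar Kbar N ℓ)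
  have := isScalarTower_along (heckeBetaBar Kbar N ℓ)
  have : Module.Finite (FN N) (FN (N * ℓ)) := beta_finite N ℓ
  exact HeckeInputs.sum_ramificationIndex v

/-- the operator `D ↦ φ² D - T_ℓ (φ D) + ℓ D` on divisors -/
def frobOp (φ : Kbar ≃ₐ[ℚ] Kbar) : Divisor Kbar (FN N) →+ Divisor Kbar (FN N) :=
  (DistribSMul.toAddMonoidHom (Divisor Kbar (FN N)) (gal N φ)).comp
      (DistribSMul.toAddMonoidHom (Divisor Kbar (FN N)) (gal N φ)) -
    (heckeDiv N ℓ).comp (DistribSMul.toAddMonoidHom (Divisor Kbar (FN N)) (gal N φ)) +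
    ℓ • AddMonoidHom.id (Divisor Kbar (FN N))

theorem frobOp_apply (φ : Kbar ≃ₐ[ℚ] Kbar) (D : Divisor Kbar (FN N)) :
    frobOp N ℓ φ D = gal N φ • gal N φ • D - heckeDiv N ℓ (gal N φ • D) + ℓ • D := rfl

end

variable {A : ValuationSubring Kbar} {N ℓ : ℕ} [NeZero N] {Y : Type*}
  {ρ : Divisor Kbar (FN N) →+ (Y →₀ ℤ)}

omit [NeZero N] in
/-- the Galois action on the divisor of a function -/
theorem frobAux_gal_div (φ : Kbar ≃ₐ[ℚ] Kbar) {y : FN N} {D : Divisor Kbar (FN N)}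
    (hD : ∀ v, D v = v.ord y) (v : Place Kbar (FN N)) :
    (gal N φ • D) v = v.ord (galF N φ y) := by
  rw [SemilinearAut.divisor_smul_apply, hD]
  have h := SemilinearAut.ord_smul (gal N φ) ((gal N φ)⁻¹ • v) y
  rw [smul_inv_smul] at h
  exact h.symm

/-- `ρ ∘ T_ℓ` is bounded on places -/
theorem frobAux_bound_hecke [NeZero ℓ] {C : ℤ}
    (hC : ∀ (v : Place Kbar (FN N)) (y : Y), |ρ (Finsupp.single v 1) y| ≤ C)
    (v : Place Kbar (FN N)) (y : Y) :
    |ρ (heckeDiv N ℓ (Finsupp.single v 1)) y| ≤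
      (finrankAlong Kbar (heckeBetaBar Kbar N ℓ) : ℤ) * C := by
  rw [heckeDiv_single, map_sum, Finsupp.finsetSum_apply, ← frobAux_sum_ram N ℓ v, Finset.sum_mul]
  refine (Finset.abs_sum_le_sum_abs _ _).trans (Finset.sum_le_sum fun w _ => ?_)
  have h1 : (Finsupp.single (w.restrictAlong (heckeAlphaBar Kbar N ℓ) (alpha_integral N ℓ))
      (1 * (w.ramificationIndexAlong (heckeBetaBar Kbar N ℓ) : ℤ)) : Divisor Kbar (FN N)) =
      (w.ramificationIndexAlong (heckeBetaBar Kbar N ℓ) : ℤ) •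
        Finsupp.single (w.restrictAlong (heckeAlphaBar Kbar N ℓ) (alpha_integral N ℓ)) 1 := by
    rw [Finsupp.smul_single, smul_eq_mul, mul_one, one_mul]
  rw [h1, map_zsmul, Finsupp.smul_apply, smul_eq_mul, abs_mul, abs_of_nonneg (Nat.cast_nonneg _)]
  exact mul_le_mul_of_nonneg_left (hC _ _) (Nat.cast_nonneg _)

/-- `ρ ∘ (φ² - T_ℓ φ + ℓ)` is bounded on places -/
theorem frobAux_bound [NeZero ℓ] (φ : Kbar ≃ₐ[ℚ] Kbar) {C : ℤ}
    (hC : ∀ (v : Place Kbar (FN N)) (y : Y), |ρ (Finsupp.single v 1) y| ≤ C)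
    (v : Place Kbar (FN N)) (y : Y) :
    |(ρ.comp (frobOp N ℓ φ)) (Finsupp.single v 1) y| ≤
      C + (finrankAlong Kbar (heckeBetaBar Kbar N ℓ) : ℤ) * C + ℓ * C := by
  rw [AddMonoidHom.comp_apply, frobOp_apply, map_add, map_sub, map_nsmul,
    SemilinearAut.smul_single, SemilinearAut.smul_single, Finsupp.add_apply, Finsupp.sub_apply,
    Finsupp.smul_apply]
  refine (abs_add_le _ _).trans (add_le_add ((abs_sub _ _).trans (add_le_add (hC _ _)
    (frobAux_bound_hecke hC _ _))) ?_)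
  rw [nsmul_eq_mul, abs_mul, abs_of_nonneg (Nat.cast_nonneg _)]
  exact mul_le_mul_of_nonneg_left (hC _ _) (Nat.cast_nonneg _)

/-- `(φ² - T_ℓ φ + ℓ) (div y)` is the divisor of `φ² y * (T_ℓ (φ y))⁻¹ * y ^ ℓ`. -/
theorem frobAux_div [NeZero ℓ] (φ : Kbar ≃ₐ[ℚ] Kbar) {y : FN N} (hy : y ≠ 0)
    {D : Divisor Kbar (FN N)} (hD : ∀ v, D v = v.ord y) (v : Place Kbar (FN N)) :
    frobOp N ℓ φ D v =
      v.ord (galF N φ (galF N φ y) * (heckeF N ℓ (galF N φ y))⁻¹ * y ^ ℓ) := by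
  have h1 : galF N φ y ≠ 0 := by simpa using hy
  have h2 : galF N φ (galF N φ y) ≠ 0 := by simpa using h1
  have h3 : heckeF N ℓ (galF N φ y) ≠ 0 := by
    intro h0
    have := (Units.map (heckeF N ℓ) (Units.mk0 _ h1)).ne_zero
    exact this h0
  have e1 := frobAux_gal_div φ hD
  have e2 := frobAux_gal_div φ e1
  have e3 : heckeDiv N ℓ (gal N φ • D) v = v.ord (heckeF N ℓ (galF N φ y)) :=
    heckeDiv_principal N ℓ h1 e1 v
  rw [frobOp_apply, Finsupp.add_apply, Finsupp.sub_apply, Finsupp.smul_apply, e2, e3, hD,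
    v.ord_mul (mul_ne_zero h2 (inv_ne_zero h3)) (pow_ne_zero _ hy),
    v.ord_mul h2 (inv_ne_zero h3), v.ord_inv, FF.ord_pow, nsmul_eq_mul]
  ring

/-- The Eichler-Shimura relation for `rr ρ`, from rigidity and `isOne_frobenius`. -/
theorem rr_frobenius_of [NeZero ℓ] (h : RedData A N ℓ ρ) (φ : Kbar ≃ₐ[ℚ] Kbar)
    (hRig : ∀ (E : Divisor Kbar (FN N) →+ (Y →₀ ℤ)) (C : ℤ),
      (∀ (v : Place Kbar (FN N)) (y : Y), |E (Finsupp.single v 1) y| ≤ C) →
      (∀ D ∈ Divisor.principal (K := Kbar) (F := FN N), E D = 0) →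
      ∀ D : Divisor Kbar (FN N), Divisor.degree D = 0 → E D = 0)
    (hOne : ∀ u : FN N, u ≠ 0 →
      IsOne A N (galF N φ (galF N φ u) * (heckeF N ℓ (galF N φ u))⁻¹ * u ^ ℓ))
    (x : JZero N) :
    rr ρ (φ • φ • x - heckeOperatorAlong Kbar N ℓ (φ • x) + ℓ • x) = 0 := by
  obtain ⟨C, hC⟩ := h.bdd
  have hE : ∀ D : Divisor Kbar (FN N), Divisor.degree D = 0 → (ρ.comp (frobOp N ℓ φ)) D = 0 := by
    refine hRig _ _ (frobAux_bound φ hC) ?_
    rintro D ⟨y, hy, hD⟩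
    exact h.one _ _ (hOne y hy) (frobAux_div φ hy hD)
  obtain ⟨D, rfl⟩ := Pic0.mk_surjective x
  have e1 : φ • Pic0.mk D = Pic0.mk (SemilinearAut.degZeroSMulHom (gal N φ) D) := rfl
  have e2 : φ • Pic0.mk (SemilinearAut.degZeroSMulHom (gal N φ) D) =
      Pic0.mk (SemilinearAut.degZeroSMulHom (gal N φ)
        (SemilinearAut.degZeroSMulHom (gal N φ) D)) := rfl
  rw [e1, e2, heckeOperatorAlong_mk, map_add, map_sub, map_nsmul, rr_mk, rr_mk, rr_mk]
  have h0 := hE D (Divisor.mem_degZero.1 D.2)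
  rw [AddMonoidHom.comp_apply, frobOp_apply, map_add, map_sub, map_nsmul] at h0
  rw [← QuotientAddGroup.mk_sub, ← QuotientAddGroup.mk_nsmul, ← QuotientAddGroup.mk_add]
  exact (congrArg QuotientAddGroup.mk h0).trans rfl

end Fermat.Agent.S37.II

end
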