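import Fermat.Agent.S37.II.RedData

/-!
# S37, route II: `rr ρ` is injective on prime-to-`ℓ` torsion
-/

set_option autoImplicit false

noncomputable section

namespace Fermat.Agent.S37.II

open AlgebraicCurve ModularCurve Fermat.Agent.S24

variable {A : ValuationSubring Kbar} {N ℓ : ℕ} {Y : Type*}
  {ρ : Divisor Kbar (FN N) →+ (Y →₀ ℤ)}

theorem rr_injective (h : RedData A N ℓ ρ) (m : ℕ) (hm : ¬ ℓ ∣ m) (x : JZero N)
    (hx : m • x = 0) (hr : rr ρ x = 0) : x = 0 := by
  obtain ⟨D, rfl⟩ := Pic0.mk_surjective x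
  rw [rr_mk, QuotientAddGroup.eq_zero_iff] at hr
  obtain ⟨E, hE, hED⟩ := hr
  have hmD : m • (D : Divisor Kbar (FN N)) ∈ Divisor.principal (K := Kbar) (F := FN N) := by
    have h1 : Pic0.mk (m • D) = 0 := hx
    have h2 := (QuotientAddGroup.eq_zero_iff (m • D)).mp h1
    rw [AddSubgroup.mem_addSubgroupOf] at h2
    simpa using h2
  have h3 : (D : Divisor Kbar (FN N)) - E ∈ Divisor.principal (K := Kbar) (F := FN N) := by
    refine h.inj m hm _ (by rw [map_sub, hED, sub_self]) ?_
    rw [smul_sub]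
    exact AddSubgroup.sub_mem _ hmD (AddSubgroup.nsmul_mem _ hE m)
  have h4 : (D : Divisor Kbar (FN N)) ∈ Divisor.principal (K := Kbar) (F := FN N) := by
    have := AddSubgroup.add_mem _ h3 hE
    simpa using this
  exact (QuotientAddGroup.eq_zero_iff D).mpr (by rwa [AddSubgroup.mem_addSubgroupOf])

end Fermat.Agent.S37.II

end
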