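import Fermat.Agent.S37.II.Core.FrobeniusAux
import Fermat.Agent.S37.II.Rigidity
import Fermat.Agent.S37.II.IsOne

/-!
# S37 route II, CORE: the Eichler-Shimura relation `rr ρ (φ² x - T_ℓ φ x + ℓ x) = 0`.
-/

set_option autoImplicit false

noncomputable section

namespace Fermat.Agent.S37.II

open AlgebraicCurve ModularCurve Fermat.Agent.S24
open Fermat.Agent.S37.HeckeInputs Fermat.Agent.GAL.E

variable {A : ValuationSubring Kbar} {N ℓ : ℕ} [NeZero N] {Y : Type*}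
  {ρ : Divisor Kbar (FN N) →+ (Y →₀ ℤ)}

theorem rr_frobenius [NeZero ℓ] (h : RedData A N ℓ ρ) (hℓ : ℓ.Prime) (hℓN : ¬ ℓ ∣ N)
    (hA : A.LiesOverPrime ℓ) (φ : Kbar ≃ₐ[ℚ] Kbar) (hφ : A.IsFrobeniusAt φ ℓ) (x : JZero N) :
    rr ρ (φ • φ • x - heckeOperatorAlong Kbar N ℓ (φ • x) + ℓ • x) = 0 :=
  rr_frobenius_of h φ
    (fun E C hC hP D hD => rigidity ⟨jF N, Formal.transcendental_jF N⟩ E C hC hP D hD)
    (fun u hu => isOne_frobenius (heckeOp N ℓ hℓ hℓN) hℓ hA φ hφ u hu) x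

end Fermat.Agent.S37.II

end
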