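import Fermat.Agent.S37.II.Core.InertiaAux
import Fermat.Agent.S37.II.Rigidity
import Fermat.Agent.S37.II.IsOne
import Fermat.Agent.S37.HeckeInputs.Main
import Fermat.Agent.S24.Formal

/-!
# S37 route II, CORE: `rr ρ` is invariant under inertia (helper263)
-/

set_option autoImplicit false

noncomputable section

namespace Fermat.Agent.S37.II

open AlgebraicCurve ModularCurve Fermat.Agent.S24 Fermat.Agent.S18 IntermediateField Polynomial
open Fermat.Agent.S37.HeckeInputs Fermat.Agent.GAL.E Fermat.Agent.S37.II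

variable {A : ValuationSubring Kbar} {N ℓ : ℕ} [NeZero N] {Y : Type*}
  {ρ : Divisor Kbar (FN N) →+ (Y →₀ ℤ)}

/-- File `S37/II/Core/Inertia.lean` -/
theorem rr_inertia (h : RedData A N ℓ ρ) (hℓ : ℓ.Prime) (hA : A.LiesOverPrime ℓ)
    (σ : Kbar ≃ₐ[ℚ] Kbar) (hσ : σ ∈ A.inertiaSubgroupIn ℚ) (x : JZero N) :
    rr ρ (σ • x) = rr ρ x :=
  rr_inertia_of h σ (fun u hu => isOne_inertia ℓ hℓ hA σ hσ u hu)
    (fun E C hC hP D hD => rigidity ⟨jF N, Formal.transcendental_jF N⟩ E C hC hP D hD) x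

end Fermat.Agent.S37.II

end
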