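import Fermat.Agent.S37.II.RedData
import Fermat.Agent.S37.Statements
import Fermat.Agent.GAL.E.Defs

/-!
# S37 route II, CORE: invariance of `rr ρ` under inertia, from the rigidity lemma and
`isOne_inertia` taken as hypotheses (helper263).
-/

set_option autoImplicit false

noncomputable section

namespace Fermat.Agent.S37.II

open AlgebraicCurve ModularCurve Fermat.Agent.S24 Fermat.Agent.GAL.E

variable {A : ValuationSubring Kbar} {N ℓ : ℕ} {Y : Type*}

/-- `E = ρ ∘ (σ - 1)` -/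
def inertiaDiff (ρ : Divisor Kbar (FN N) →+ (Y →₀ ℤ)) (σ : GQ) :
    Divisor Kbar (FN N) →+ (Y →₀ ℤ) :=
  ρ.comp (DistribSMul.toAddMonoidHom (Divisor Kbar (FN N)) (gal N σ) - AddMonoidHom.id _)

theorem inertiaDiff_apply (ρ : Divisor Kbar (FN N) →+ (Y →₀ ℤ)) (σ : GQ)
    (D : Divisor Kbar (FN N)) : inertiaDiff ρ σ D = ρ (gal N σ • D - D) := rfl

/-- the divisor of `σ f / f` -/
theorem gal_smul_sub_apply (σ : GQ) {D : Divisor Kbar (FN N)} {f : FN N} (hf : f ≠ 0)
    (hD : ∀ v, D v = v.ord f) (v : Place Kbar (FN N)) :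
    (gal N σ • D - D) v = v.ord (galF N σ f * f⁻¹) := by
  have h := SemilinearAut.ord_smul (gal N σ) ((gal N σ)⁻¹ • v) f
  rw [smul_inv_smul] at h
  have h2 : gal N σ • f = galF N σ f := rfl
  have hσf : galF N σ f ≠ 0 := by simpa using hf
  rw [Finsupp.sub_apply, SemilinearAut.divisor_smul_apply, hD, hD, ← h, h2,
    v.ord_mul hσf (inv_ne_zero hf), v.ord_inv, sub_eq_add_neg]

variable {ρ : Divisor Kbar (FN N) →+ (Y →₀ ℤ)}

theorem rr_inertia_of (h : RedData A N ℓ ρ) (σ : GQ)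
    (hone : ∀ u : FN N, u ≠ 0 → IsOne A N (galF N σ u * u⁻¹))
    (hrig : ∀ (E : Divisor Kbar (FN N) →+ (Y →₀ ℤ)) (C : ℤ),
      (∀ (v : Place Kbar (FN N)) (y : Y), |E (Finsupp.single v 1) y| ≤ C) →
      (∀ D ∈ Divisor.principal (K := Kbar) (F := FN N), E D = 0) →
      ∀ D : Divisor Kbar (FN N), Divisor.degree D = 0 → E D = 0)
    (x : JZero N) : rr ρ (σ • x) = rr ρ x := by
  obtain ⟨D, rfl⟩ := Pic0.mk_surjective x
  show rr ρ (Pic0.mk (SemilinearAut.degZeroSMulHom (gal N σ) D)) = _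
  rw [rr_mk, rr_mk, SemilinearAut.coe_degZeroSMulHom]
  obtain ⟨C, hC⟩ := h.bdd
  have key : inertiaDiff ρ σ (D : Divisor Kbar (FN N)) = 0 := by
    refine hrig (inertiaDiff ρ σ) (C + C) (fun v y => ?_) (fun D' hD' => ?_) _
      (Divisor.mem_degZero.1 D.2)
    · rw [inertiaDiff_apply, map_sub, SemilinearAut.smul_single, Finsupp.sub_apply]
      exact (abs_sub _ _).trans (add_le_add (hC _ y) (hC _ y))
    · obtain ⟨f, hf, hD'⟩ := hD'
      rw [inertiaDiff_apply]
      exact h.one _ _ (hone f hf) (gal_smul_sub_apply σ hf hD')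
  rw [inertiaDiff_apply, map_sub, sub_eq_zero] at key
  rw [key]

end Fermat.Agent.S37.II

end
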